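import Mathlib
import Fermat.Agent.S24.HolH
import Fermat.Agent.S24.JFun
import Fermat.Agent.S24.StabJ
import Fermat.Agent.S24.HNF

set_option autoImplicit false

/-!
S24, DEGREE block, piece GR (growth): the subalgebra `cuspMod` of holomorphic functions on `ℍ`
all of whose `SL(2, ℤ)`-translates have moderate growth at `i∞`, and the fact that the functions
`τ ↦ j (d τ)` belong to it (Hermite normal form + `‖j τ‖ ∼ exp (2 π im τ)`).
-/

namespace Fermat.Agent.S24.Degree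

open UpperHalfPlane Function Filter Asymptotics
open Fermat.Agent.S24.HolH Fermat.Agent.S24.JFun Fermat.Agent.S24.StabAbs
open scoped MatrixGroups Topology Real

local notation "𝕢" => Function.Periodic.qParam

/-- Moderate growth at `i∞`: some power of `q` kills the pole. -/
def ModAt (f : ℍ → ℂ) : Prop :=
  ∃ m : ℕ, IsBoundedAtImInfty (fun τ : ℍ => 𝕢 1 (τ : ℂ) ^ m * f τ)

theorem norm_qParam_eq (τ : ℍ) : ‖𝕢 1 (τ : ℂ)‖ = Real.exp (-2 * π * τ.im) := by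
  rw [Function.Periodic.norm_qParam]
  simp

theorem norm_qParam_le_one (τ : ℍ) : ‖𝕢 1 (τ : ℂ)‖ ≤ 1 := by
  rw [norm_qParam_eq]
  apply Real.exp_le_one_iff.mpr
  have h := τ.im_pos
  have hπ := Real.pi_pos
  nlinarith

/-- `ModAt` with exponent `m` implies it with any larger exponent. -/
theorem isBounded_of_le {f : ℍ → ℂ} {m m' : ℕ} (hmm : m ≤ m')
    (h : IsBoundedAtImInfty (fun τ : ℍ => 𝕢 1 (τ : ℂ) ^ m * f τ)) :
    IsBoundedAtImInfty (fun τ : ℍ => 𝕢 1 (τ : ℂ) ^ m' * f τ) := by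
  rw [UpperHalfPlane.isBoundedAtImInfty_iff] at h ⊢
  obtain ⟨M, A, hMA⟩ := h
  refine ⟨M, A, fun z hz => ?_⟩
  have h1 := hMA z hz
  have e : 𝕢 1 (z : ℂ) ^ m' * f z = 𝕢 1 (z : ℂ) ^ (m' - m) * (𝕢 1 (z : ℂ) ^ m * f z) := by
    rw [← mul_assoc, ← pow_add, Nat.sub_add_cancel hmm]
  rw [e, norm_mul, norm_pow]
  have h2 : ‖𝕢 1 (z : ℂ)‖ ^ (m' - m) ≤ 1 := pow_le_one₀ (norm_nonneg _) (norm_qParam_le_one z)
  calc ‖𝕢 1 (z : ℂ)‖ ^ (m' - m) * ‖𝕢 1 (z : ℂ) ^ m * f z‖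
      ≤ 1 * ‖𝕢 1 (z : ℂ) ^ m * f z‖ := mul_le_mul_of_nonneg_right h2 (norm_nonneg _)
    _ = ‖𝕢 1 (z : ℂ) ^ m * f z‖ := one_mul _
    _ ≤ M := h1

theorem modAt_const (c : ℂ) : ModAt (fun _ : ℍ => c) := by
  refine ⟨0, ?_⟩
  rw [UpperHalfPlane.isBoundedAtImInfty_iff]
  exact ⟨‖c‖, 0, fun z _ => by simp⟩

theorem ModAt.add {f g : ℍ → ℂ} (hf : ModAt f) (hg : ModAt g) : ModAt (fun τ => f τ + g τ) := by
  obtain ⟨m, hm⟩ := hf
  obtain ⟨n, hn⟩ := hg
  refine ⟨max m n, ?_⟩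
  have h1 := isBounded_of_le (le_max_left m n) hm
  have h2 := isBounded_of_le (le_max_right m n) hn
  have h3 := h1.add h2
  refine h3.congr' ?_ (EventuallyEq.refl _ _)
  filter_upwards with τ
  simp only [Pi.add_apply]
  ring

theorem ModAt.mul {f g : ℍ → ℂ} (hf : ModAt f) (hg : ModAt g) : ModAt (fun τ => f τ * g τ) := by
  obtain ⟨m, hm⟩ := hf
  obtain ⟨n, hn⟩ := hg
  refine ⟨m + n, ?_⟩
  have h3 := hm.mul hn
  refine h3.congr' ?_ (EventuallyEq.refl _ _)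
  filter_upwards with τ
  simp only [Pi.mul_apply]
  ring

theorem ModAt.congr {f g : ℍ → ℂ} (hf : ModAt f) (h : ∀ τ, f τ = g τ) : ModAt g := by
  have : f = g := funext h
  rwa [← this]

/-- The subalgebra of holomorphic functions all of whose `SL(2, ℤ)`-translates have moderate
growth at `i∞`. -/
def cuspMod : Subalgebra ℂ HolH where
  carrier := {f | ∀ g : SL(2, ℤ), ModAt (fun τ => (f : ℍ → ℂ) (g • τ))}
  mul_mem' := fun h₁ h₂ g => (h₁ g).mul (h₂ g)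
  add_mem' := fun h₁ h₂ g => (h₁ g).add (h₂ g)
  algebraMap_mem' := fun c _ => modAt_const c

theorem mem_cuspMod_iff {f : HolH} :
    f ∈ cuspMod ↔ ∀ g : SL(2, ℤ), ModAt (fun τ => (f : ℍ → ℂ) (g • τ)) := Iff.rfl

theorem compSL_mem_cuspMod (g : SL(2, ℤ)) {f : HolH} (hf : f ∈ cuspMod) :
    compSL g f ∈ cuspMod := by
  intro g'
  refine (hf (g * g')).congr fun τ => ?_
  simp [mul_smul]

/-- Every element of `cuspMod` has moderate growth at `i∞` (the hypothesis `hB` of `SY`). -/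
theorem modAt_of_mem_cuspMod {f : HolH} (hf : f ∈ cuspMod) :
    ∃ m : ℕ, IsBoundedAtImInfty (fun τ : ℍ => 𝕢 1 (τ : ℂ) ^ m * (f : ℍ → ℂ) τ) := by
  have h := hf 1
  exact h.congr fun τ => by simp

/-- Moderate growth of `τ ↦ j ((a τ + b) / d')`. -/
theorem modAt_jFun_affPt (a d' : ℕ) (b : ℤ) (ha : 0 < a) (hd' : 0 < d') :
    ModAt (fun τ => jFun (HNF.affPt a d' b ha hd' τ)) := by
  refine ⟨a, ?_⟩
  rw [UpperHalfPlane.isBoundedAtImInfty_iff]
  have hev := StabJ.tendsto_norm_jFun_mul_exp.eventually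
    (gt_mem_nhds (show (1 : ℝ) < 2 by norm_num))
  obtain ⟨A₀, hA₀⟩ := (UpperHalfPlane.atImInfty_mem _).mp hev
  have ha1 : (1 : ℝ) ≤ a := by exact_mod_cast ha
  have hd1 : (1 : ℝ) ≤ d' := by exact_mod_cast hd'
  have hd0 : (0 : ℝ) < d' := by linarith
  refine ⟨2, max A₀ 0 * d', fun z hz => ?_⟩
  have him : (HNF.affPt a d' b ha hd' z).im = a * z.im / d' := HNF.im_affPt a d' b ha hd' z
  have hz0 : 0 < z.im := z.im_pos
  have hmax0 : (0 : ℝ) ≤ max A₀ 0 := le_max_right _ _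
  have hw : A₀ ≤ (HNF.affPt a d' b ha hd' z).im := by
    rw [him, le_div_iff₀ hd0]
    calc A₀ * d' ≤ max A₀ 0 * d' := mul_le_mul_of_nonneg_right (le_max_left _ _) hd0.le
      _ ≤ z.im := hz
      _ ≤ a * z.im := le_mul_of_one_le_left hz0.le ha1
  have h1 : ‖jFun (HNF.affPt a d' b ha hd' z)‖
      * Real.exp (-2 * π * (HNF.affPt a d' b ha hd' z).im) < 2 := hA₀ _ hw
  have hle : (HNF.affPt a d' b ha hd' z).im ≤ a * z.im := by
    rw [him]
    exact div_le_self (mul_nonneg (by linarith) hz0.le) hd1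
  have h2 : Real.exp (-2 * π * z.im) ^ a
      ≤ Real.exp (-2 * π * (HNF.affPt a d' b ha hd' z).im) := by
    rw [← Real.exp_nat_mul]
    apply Real.exp_le_exp.mpr
    have hπ := Real.pi_pos
    nlinarith
  rw [norm_mul, norm_pow, norm_qParam_eq]
  calc Real.exp (-2 * π * z.im) ^ a * ‖jFun (HNF.affPt a d' b ha hd' z)‖
      ≤ Real.exp (-2 * π * (HNF.affPt a d' b ha hd' z).im)
          * ‖jFun (HNF.affPt a d' b ha hd' z)‖ :=
        mul_le_mul_of_nonneg_right h2 (norm_nonneg _)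
    _ = ‖jFun (HNF.affPt a d' b ha hd' z)‖
          * Real.exp (-2 * π * (HNF.affPt a d' b ha hd' z).im) := mul_comm _ _
    _ ≤ 2 := h1.le

theorem jScale_mem_cuspMod (d : ℕ) [NeZero d] (f : HolH)
    (hf : ∀ τ, (f : ℍ → ℂ) τ = jFun (scaleH d τ)) : f ∈ cuspMod := by
  intro g
  have hd : 0 < d := Nat.pos_of_ne_zero (NeZero.ne d)
  obtain ⟨a, d', b, ha, hd', -, -, -, -, h⟩ := HNF.exists_hnf_pt_invariant d hd g
  refine (modAt_jFun_affPt a d' b ha hd').congr fun τ => ?_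
  rw [hf, ← h jFun jFun_smul τ]
  rfl

end Fermat.Agent.S24.Degree
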