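import Fermat.Agent.S24.HolHCoset
import Fermat.Agent.S24.PolyJ

set_option autoImplicit false
set_option linter.dupNamespace false

/-!
S24, DEGREE block, piece SY: for a `Γ₀(N)`-invariant ring hom `θ : A →+* HolH` whose conjugates
have moderate growth at `i∞`, every `θ a` is a root of a monic polynomial of degree
`[SL(2,ℤ) : Γ₀(N)]` whose coefficients are polynomials (over `ℂ`) in the `j`-function.
-/

open scoped Manifold MatrixGroups Topology
open UpperHalfPlane Filter CongruenceSubgroup Polynomial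
open Fermat.Agent.S24.HolH Fermat.Agent.S24.JFun

noncomputable section

namespace Fermat.Agent.S24.Degree

local notation "𝕢" => Function.Periodic.qParam

variable {N : ℕ} {A : Type*} [CommRing A] [Fintype (SL(2, ℤ) ⧸ Gamma0 N)]

/-- The characteristic polynomial of `a` with respect to the coset family of `θ`. -/
def cosetPoly (θ : A →+* HolH) (a : A) : HolH[X] :=
  ∏ x : SL(2, ℤ) ⧸ Gamma0 N, (X - C (cosetHom θ x a))

theorem cosetPoly_monic (θ : A →+* HolH) (a : A) : (cosetPoly (N := N) θ a).Monic :=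
  monic_prod_of_monic _ _ fun _ _ => monic_X_sub_C _

theorem cosetPoly_natDegree (θ : A →+* HolH) (a : A) :
    (cosetPoly (N := N) θ a).natDegree = Fintype.card (SL(2, ℤ) ⧸ Gamma0 N) := by
  rw [cosetPoly, natDegree_finsetProd_X_sub_C_eq_card]
  rfl

/-- the characteristic polynomial is invariant under `SL(2,ℤ)`. -/
theorem cosetPoly_map_compSL (θ : A →+* HolH)
    (hθ : ∀ γ ∈ Gamma0 N, ∀ a, compSL γ (θ a) = θ a) (a : A) (γ : SL(2, ℤ)) :
    (cosetPoly (N := N) θ a).map ((compSL γ : HolH →ₐ[ℂ] HolH) : HolH →+* HolH)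
      = cosetPoly (N := N) θ a := by
  rw [cosetPoly, Polynomial.map_prod]
  have h1 : ∀ x : SL(2, ℤ) ⧸ Gamma0 N,
      (X - C (cosetHom θ x a)).map ((compSL γ : HolH →ₐ[ℂ] HolH) : HolH →+* HolH)
        = X - C (cosetHom θ (γ⁻¹ • x) a) := by
    intro x
    rw [Polynomial.map_sub, Polynomial.map_X, Polynomial.map_C, cosetHom_smul θ hθ, inv_inv]
    rfl
  simp only [h1]
  exact Fintype.prod_equiv (MulAction.toPerm (γ⁻¹ : SL(2, ℤ))) _ _ (fun x => rfl)

theorem cosetPoly_coeff_invariant (θ : A →+* HolH)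
    (hθ : ∀ γ ∈ Gamma0 N, ∀ a, compSL γ (θ a) = θ a) (a : A) (k : ℕ) (γ : SL(2, ℤ)) (τ : ℍ) :
    ((cosetPoly (N := N) θ a).coeff k : ℍ → ℂ) (γ • τ)
      = ((cosetPoly (N := N) θ a).coeff k : ℍ → ℂ) τ := by
  have h := congrArg (fun p : HolH[X] => p.coeff k) (cosetPoly_map_compSL θ hθ a γ)
  simp only [Polynomial.coeff_map] at h
  have h2 := congrArg (fun f : HolH => (f : ℍ → ℂ) τ) h
  exact h2

/-- coefficients of `∏ (X - C (f x))` lie in any subalgebra containing the `f x`. -/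
theorem coeff_prod_X_sub_C_mem {R H σ : Type*} [CommRing R] [CommRing H] [Algebra R H]
    (B : Subalgebra R H) (s : Finset σ) (f : σ → H) (hf : ∀ x ∈ s, f x ∈ B) (k : ℕ) :
    (∏ x ∈ s, (X - C (f x))).coeff k ∈ B := by
  classical
  induction s using Finset.induction_on generalizing k with
  | empty =>
    rw [Finset.prod_empty, Polynomial.coeff_one]
    split_ifs
    · exact one_mem B
    · exact zero_mem B
  | insert a s ha ih =>
    rw [Finset.prod_insert ha, Polynomial.coeff_mul]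
    refine Subalgebra.sum_mem B fun ij _ =>
      mul_mem ?_ (ih (fun x hx => hf x (Finset.mem_insert_of_mem hx)) ij.2)
    rw [Polynomial.coeff_sub, Polynomial.coeff_X, Polynomial.coeff_C]
    refine sub_mem ?_ ?_
    · split_ifs
      · exact one_mem B
      · exact zero_mem B
    · split_ifs
      · exact hf a (Finset.mem_insert_self a s)
      · exact zero_mem B

theorem cosetPoly_coeff_mem (θ : A →+* HolH) (a : A) (B : Subalgebra ℂ HolH)
    (hB : ∀ x : SL(2, ℤ) ⧸ Gamma0 N, cosetHom θ x a ∈ B) (k : ℕ) :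
    (cosetPoly (N := N) θ a).coeff k ∈ B :=
  coeff_prod_X_sub_C_mem B Finset.univ (fun x => cosetHom θ x a) (fun x _ => hB x) k

theorem cosetPoly_eval (θ : A →+* HolH)
    (hθ : ∀ γ ∈ Gamma0 N, ∀ a, compSL γ (θ a) = θ a) (a : A) :
    (cosetPoly (N := N) θ a).eval (θ a) = 0 := by
  rw [cosetPoly, Polynomial.eval_prod]
  refine Finset.prod_eq_zero (Finset.mem_univ ((1 : SL(2, ℤ)) : SL(2, ℤ) ⧸ Gamma0 N)) ?_
  rw [cosetHom_mk θ hθ, inv_one, compSL_one]
  simp

/-- **SY**: `θ a` is a root of a monic polynomial of degree `[SL(2,ℤ) : Γ₀(N)]` with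
coefficients in `ℂ[j]`. -/
theorem exists_poly_relation (θ : A →+* HolH)
    (hθ : ∀ γ ∈ Gamma0 N, ∀ a, compSL γ (θ a) = θ a)
    (B : Subalgebra ℂ HolH)
    (hB : ∀ f ∈ B, ∃ m : ℕ, IsBoundedAtImInfty (fun τ : ℍ => 𝕢 1 (τ : ℂ) ^ m * (f : ℍ → ℂ) τ))
    (a : A) (hBθ : ∀ x : SL(2, ℤ) ⧸ Gamma0 N, cosetHom θ x a ∈ B) :
    ∃ P : ℕ → Polynomial ℂ, ∀ τ : ℍ,
      (θ a : ℍ → ℂ) τ ^ Fintype.card (SL(2, ℤ) ⧸ Gamma0 N)
        + ∑ k ∈ Finset.range (Fintype.card (SL(2, ℤ) ⧸ Gamma0 N)),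
            (P k).eval (jFun τ) * (θ a : ℍ → ℂ) τ ^ k = 0 := by
  set n := Fintype.card (SL(2, ℤ) ⧸ Gamma0 N) with hn
  set Q := cosetPoly (N := N) θ a with hQ
  have hP : ∀ k : ℕ, ∃ P : Polynomial ℂ, ∀ τ : ℍ, (Q.coeff k : ℍ → ℂ) τ = P.eval (jFun τ) := by
    intro k
    obtain ⟨m, hm⟩ := hB _ (cosetPoly_coeff_mem θ a B hBθ k)
    obtain ⟨P, -, hP⟩ := Fermat.Agent.S24.PolyJ.exists_polynomial_eval_jFun m
      (Q.coeff k).2 (fun γ τ => cosetPoly_coeff_invariant θ hθ a k γ τ) hm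
    exact ⟨P, hP⟩
  choose P hP using hP
  refine ⟨P, fun τ => ?_⟩
  have h0 : Q.eval (θ a) = 0 := cosetPoly_eval θ hθ a
  have hsum := (cosetPoly_monic (N := N) θ a).as_sum
  rw [cosetPoly_natDegree] at hsum
  rw [hQ, hsum] at h0
  simp only [Polynomial.eval_add, Polynomial.eval_pow, Polynomial.eval_X, Polynomial.eval_finsetSum,
    Polynomial.eval_mul, Polynomial.eval_C] at h0
  have h1 := congrArg (fun f : HolH => (f : ℍ → ℂ) τ) h0
  beta_reduce at h1
  rw [← hn] at h1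
  have h2 : ((θ a ^ n + ∑ k ∈ Finset.range n, Q.coeff k * θ a ^ k : HolH) : ℍ → ℂ) τ
      = (θ a : ℍ → ℂ) τ ^ n + ∑ k ∈ Finset.range n, (Q.coeff k : ℍ → ℂ) τ * (θ a : ℍ → ℂ) τ ^ k := by
    have hev : ∀ f : HolH, (f : ℍ → ℂ) τ = ((Pi.evalRingHom (fun _ : ℍ => ℂ) τ).comp
        (HolH.val : HolH →+* (ℍ → ℂ))) f := fun f => rfl
    rw [hev, map_add, map_pow, map_sum]
    simp only [map_mul, map_pow]
    rfl
  rw [h2] at h1
  have h3 : ((0 : HolH) : ℍ → ℂ) τ = 0 := rfl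
  rw [h3] at h1
  rw [← h1]
  congr 1
  exact Finset.sum_congr rfl fun k _ => by rw [hP k τ]

end Fermat.Agent.S24.Degree
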