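import Mathlib
import Fermat.Prelude.Def_ModularCurve_LaurentCoeff
import Fermat.Agent.S24.QBridge

set_option autoImplicit false

/-!
S24, DEGREE block, piece DE: descent of `ℂ`-linear relations between functions with
`ι(K)`-rational `q`-expansions to `K`-linear relations between the formal expansions,
by a `K`-linear retraction of `ι : K →+* ℂ` (no rationality input needed).
-/

namespace Fermat.Agent.S24.Degree

open UpperHalfPlane Function IntermediateField
open Fermat.Agent.S24.QBridge

local notation "𝕢" => Function.Periodic.qParam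

/-- every point of the punctured unit disc is `q(τ)` for some `τ : ℍ`. -/
theorem exists_qParam_eq {q : ℂ} (hq : ‖q‖ < 1) (hq0 : q ≠ 0) : ∃ τ : ℍ, 𝕢 1 (τ : ℂ) = q := by
  refine ⟨⟨Function.Periodic.invQParam 1 q, ?_⟩, ?_⟩
  · exact Function.Periodic.im_invQParam_pos_of_norm_lt_one one_pos hq hq0
  · exact Function.Periodic.qParam_right_inv one_ne_zero hq0

/-- Uniqueness of Laurent `q`-expansions: a Laurent series in `q` (support bounded below)
that sums to `0` at every point of `ℍ` is zero. -/
theorem laurent_coeff_eq_zero (c : ℤ → ℂ) (M : ℤ) (hM : ∀ n < M, c n = 0)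
    (h : ∀ τ : ℍ, HasSum (fun n : ℤ => c n * 𝕢 1 (τ : ℂ) ^ n) 0) : ∀ n, c n = 0 := by
  set b : ℕ → ℂ := fun k => c (M - 1 + k) with hb
  have hb0 : b 0 = 0 := by
    simp only [hb]
    exact hM _ (by simp)
  have hinj : Function.Injective (fun k : ℕ => M - 1 + (k : ℤ)) := by
    intro x y hxy
    simpa using hxy
  have hQ : HasQExp (PowerSeries.mk b) (fun _ => 0) := by
    intro q hq
    simp only [PowerSeries.coeff_mk]
    by_cases hq0 : q = 0
    · subst hq0
      have hfun : (fun n : ℕ => b n * (0 : ℂ) ^ n) = fun _ => 0 := by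
        funext n
        rcases Nat.eq_zero_or_pos n with rfl | hn
        · simp [hb0]
        · simp [hn.ne']
      rw [hfun]
      exact hasSum_zero
    · obtain ⟨τ, rfl⟩ := exists_qParam_eq hq hq0
      have h1 := h τ
      have h2 : HasSum ((fun n : ℤ => c n * 𝕢 1 (τ : ℂ) ^ n) ∘ fun k : ℕ => M - 1 + (k : ℤ)) 0 := by
        refine (hinj.hasSum_iff ?_).mpr h1
        intro n hn
        have hlt : n < M := by
          by_contra hge
          apply hn
          refine ⟨(n - (M - 1)).toNat, ?_⟩
          show M - 1 + ((n - (M - 1)).toNat : ℤ) = n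
          omega
        rw [hM n hlt, zero_mul]
      have h3 := h2.mul_left ((𝕢 1 (τ : ℂ)) ^ (-(M - 1)))
      rw [mul_zero] at h3
      have hq0' : 𝕢 1 (τ : ℂ) ≠ 0 := hq0
      have hfun : (fun n : ℕ => b n * 𝕢 1 (τ : ℂ) ^ n)
          = fun k : ℕ => 𝕢 1 (τ : ℂ) ^ (-(M - 1)) *
              ((fun n : ℤ => c n * 𝕢 1 (τ : ℂ) ^ n) ∘ fun k : ℕ => M - 1 + (k : ℤ)) k := by
        funext k
        simp only [hb, Function.comp_apply]
        rw [zpow_add₀ hq0', zpow_neg, zpow_natCast]
        field_simp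
      rw [hfun]
      exact h3
  have h0 : HasQExp (0 : PowerSeries ℂ) (fun _ => 0) := fun q _ => by
    simp [hasSum_zero]
  have hmk : PowerSeries.mk b = 0 := hQ.unique h0
  intro n
  by_cases hn : n < M
  · exact hM n hn
  · have h1 := congrArg (PowerSeries.coeff (n - (M - 1)).toNat) hmk
    rw [PowerSeries.coeff_mk, map_zero] at h1
    have h2 : M - 1 + ((n - (M - 1)).toNat : ℤ) = n := by omega
    simp only [hb] at h1
    rwa [h2] at h1

/-- a `K`-linear retraction of a field embedding `ι : K →+* ℂ`. -/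
theorem exists_retraction {K : Type*} [Field K] (ι : K →+* ℂ) :
    ∃ π : ℂ →+ K, (∀ (c : K) (x : ℂ), π (ι c * x) = c * π x) ∧ ∀ c : K, π (ι c) = c := by
  let _ : Algebra K ℂ := ι.toAlgebra
  have hker : LinearMap.ker (Algebra.linearMap K ℂ) = ⊥ := by
    rw [LinearMap.ker_eq_bot]
    exact ι.injective
  obtain ⟨g, hg⟩ := LinearMap.exists_leftInverse_of_injective (Algebra.linearMap K ℂ) hker
  refine ⟨g.toAddMonoidHom, ?_, ?_⟩
  · intro c x
    have h1 : ι c * x = c • x := by
      rw [Algebra.smul_def]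
      rfl
    show g (ι c * x) = c * g x
    rw [h1, map_smul, smul_eq_mul]
  · intro c
    have h := congrArg (fun f : K →ₗ[K] K => f c) hg
    exact h

/-- support of finitely many Laurent series is uniformly bounded below. -/
theorem exists_lower_bound {K : Type*} [Field K] {σ : Type*} (s : Finset σ)
    (f : σ → LaurentSeries K) : ∃ M : ℤ, ∀ i ∈ s, ∀ n < M, (f i).coeff n = 0 := by
  classical
  induction s using Finset.induction_on with
  | empty => exact ⟨0, by simp⟩
  | insert a s _ ih =>
    obtain ⟨M, hM⟩ := ih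
    refine ⟨min M (f a).order, ?_⟩
    intro i hi n hn
    rcases Finset.mem_insert.mp hi with rfl | hi
    · exact HahnSeries.coeff_eq_zero_of_lt_order (lt_of_lt_of_le hn (min_le_right _ _))
    · exact hM i hi n (lt_of_lt_of_le hn (min_le_left _ _))

/-- **Descent**: a `ℂ`-linear relation among functions with `ι(K)`-rational `q`-expansions
descends, via any `K`-linear map `π : ℂ → K`, to a `K`-linear relation among the coefficients of
the formal expansions. -/
theorem descent_coeff {K : Type*} [Field K] (ι : K →+* ℂ) (π : ℂ →+ K)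
    (hπ : ∀ (c : K) (x : ℂ), π (ι c * x) = c * π x)
    {σ : Type*} (s : Finset σ) (f : σ → LaurentSeries K) (φ : σ → ℍ → ℂ) (c : σ → ℂ)
    (hexp : ∀ i ∈ s, ∀ τ : ℍ,
      HasSum (fun n : ℤ => ι ((f i).coeff n) * 𝕢 1 (τ : ℂ) ^ n) (φ i τ))
    (hrel : ∀ τ : ℍ, ∑ i ∈ s, c i * φ i τ = 0) (n : ℤ) :
    ∑ i ∈ s, π (c i) * (f i).coeff n = 0 := by
  obtain ⟨M, hM⟩ := exists_lower_bound s f
  have hsum : ∀ τ : ℍ, HasSum (fun n : ℤ => (∑ i ∈ s, c i * ι ((f i).coeff n)) * 𝕢 1 (τ : ℂ) ^ n)
      0 := by
    intro τ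
    have h1 : HasSum (fun n : ℤ => ∑ i ∈ s, c i * (ι ((f i).coeff n) * 𝕢 1 (τ : ℂ) ^ n))
        (∑ i ∈ s, c i * φ i τ) :=
      hasSum_sum fun i hi => (hexp i hi τ).mul_left (c i)
    rw [hrel τ] at h1
    refine h1.congr_fun ?_ |> id
    intro n
    rw [Finset.sum_mul]
    refine Finset.sum_congr rfl fun i _ => ?_
    ring
  have hzero := laurent_coeff_eq_zero (fun n : ℤ => ∑ i ∈ s, c i * ι ((f i).coeff n)) M
    (fun n hn => Finset.sum_eq_zero fun i hi => by rw [hM i hi n hn, map_zero, mul_zero]) hsum n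
  have h2 := congrArg π hzero
  rw [map_zero, map_sum] at h2
  rw [← h2]
  refine Finset.sum_congr rfl fun i _ => ?_
  rw [mul_comm (c i), hπ, mul_comm]

/-- coefficients of a constant multiple of a Laurent series. -/
theorem coeff_algebraMap_mul_laurent {K : Type*} [Field K] (c : K) (x : LaurentSeries K) (m : ℤ) :
    (algebraMap K (LaurentSeries K) c * x).coeff m = c * x.coeff m := by
  rw [ModularCurve.algebraMap_laurentSeries_eq_single, HahnSeries.coeff_single_zero_mul]

/-- **Descent of a monic relation**: if `φa` satisfies a monic polynomial relation of degree `n`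
with coefficients polynomials (over `ℂ`) in `φj`, and all monomials `φj ^ e * φa ^ k` have
`q`-expansions `ι (j ^ e * a ^ k)`, then the Laurent series `a` satisfies a monic relation of
degree `n` with coefficients polynomials over `K` in `j`. -/
theorem exists_poly_relation_of_hasSum {K : Type*} [Field K] (ι : K →+* ℂ)
    (a j : LaurentSeries K) (φa φj : ℍ → ℂ)
    (hexp : ∀ (e k : ℕ) (τ : ℍ),
      HasSum (fun m : ℤ => ι ((j ^ e * a ^ k).coeff m) * 𝕢 1 (τ : ℂ) ^ m) (φj τ ^ e * φa τ ^ k))
    (n : ℕ) (P : ℕ → Polynomial ℂ)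
    (hrel : ∀ τ : ℍ, φa τ ^ n + ∑ k ∈ Finset.range n, (P k).eval (φj τ) * φa τ ^ k = 0) :
    ∃ p : ℕ → Polynomial K,
      a ^ n + ∑ k ∈ Finset.range n, Polynomial.aeval j (p k) * a ^ k = 0 := by
  classical
  obtain ⟨π, hπ, hπι⟩ := exists_retraction ι
  set D : ℕ := (Finset.range n).sup (fun k => (P k).natDegree) + 1 with hD
  have hdeg : ∀ k ∈ Finset.range n, (P k).natDegree < D := by
    intro k hk
    have := Finset.le_sup (f := fun k => (P k).natDegree) hk
    omega
  set s0 : Finset (ℕ × ℕ) := Finset.range n ×ˢ Finset.range D with hs0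
  have hnot : ((n, 0) : ℕ × ℕ) ∉ s0 := by
    simp [hs0]
  set c : ℕ × ℕ → ℂ := fun i => if i.1 = n then 1 else (P i.1).coeff i.2 with hc
  have key := descent_coeff ι π hπ (insert (n, 0) s0) (fun i : ℕ × ℕ => j ^ i.2 * a ^ i.1)
    (fun i τ => φj τ ^ i.2 * φa τ ^ i.1) c (fun i _ τ => hexp i.2 i.1 τ) (by
      intro τ
      rw [Finset.sum_insert hnot, ← hrel τ]
      congr 1
      · simp [hc]
      · rw [hs0, Finset.sum_product]
        refine Finset.sum_congr rfl fun k hk => ?_
        have hkn : k ≠ n := (Finset.mem_range.mp hk).ne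
        rw [Polynomial.eval_eq_sum_range' (hdeg k hk), Finset.sum_mul]
        refine Finset.sum_congr rfl fun e _ => ?_
        simp only [hc, if_neg hkn]
        ring)
  refine ⟨fun k => ∑ e ∈ Finset.range D, Polynomial.C (π ((P k).coeff e)) * Polynomial.X ^ e, ?_⟩
  ext m
  have hkey := key m
  rw [Finset.sum_insert hnot] at hkey
  have h1 : π (c (n, 0)) = 1 := by
    simp only [hc, if_true]
    have := hπι 1
    rwa [map_one] at this
  rw [h1, one_mul, pow_zero, one_mul] at hkey
  rw [HahnSeries.coeff_add, HahnSeries.coeff_zero, ← hkey, HahnSeries.coeff_sum]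
  congr 1
  rw [hs0, Finset.sum_product]
  refine Finset.sum_congr rfl fun k hk => ?_
  have hkn : k ≠ n := (Finset.mem_range.mp hk).ne
  rw [map_sum, Finset.sum_mul, HahnSeries.coeff_sum]
  refine Finset.sum_congr rfl fun e _ => ?_
  simp only [hc, if_neg hkn]
  rw [map_mul, Polynomial.aeval_C, map_pow, Polynomial.aeval_X, mul_assoc,
    coeff_algebraMap_mul_laurent]

/-- from a monic relation with coefficients in `K[J]` to a monic polynomial over `K⟮J⟯`. -/
theorem exists_monic_of_relation {K F : Type*} [Field K] [Field F] [Algebra K F] (J a : F) (n : ℕ)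
    (p : ℕ → Polynomial K)
    (h : a ^ n + ∑ k ∈ Finset.range n, Polynomial.aeval J (p k) * a ^ k = 0) :
    ∃ q : Polynomial K⟮J⟯, q.Monic ∧ q.natDegree = n ∧ Polynomial.aeval a q = 0 := by
  set R : Polynomial K⟮J⟯ := ∑ k ∈ Finset.range n,
    Polynomial.C (Polynomial.aeval (AdjoinSimple.gen K J) (p k)) * Polynomial.X ^ k with hR
  have hRdeg : R.degree < (n : WithBot ℕ) := by
    rw [Polynomial.degree_lt_iff_coeff_zero]
    intro m hm
    rw [hR, Polynomial.finsetSum_coeff]
    refine Finset.sum_eq_zero fun k hk => ?_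
    rw [Polynomial.coeff_C_mul_X_pow, if_neg]
    have := Finset.mem_range.mp hk
    omega
  refine ⟨Polynomial.X ^ n + R, Polynomial.monic_X_pow_add hRdeg, ?_, ?_⟩
  · apply Polynomial.natDegree_eq_of_degree_eq_some
    rw [Polynomial.degree_add_eq_left_of_degree_lt (by rwa [Polynomial.degree_X_pow]),
      Polynomial.degree_X_pow]
  · rw [map_add, map_pow, Polynomial.aeval_X, hR, map_sum, ← h]
    congr 1
    refine Finset.sum_congr rfl fun k _ => ?_
    rw [map_mul, Polynomial.aeval_C, map_pow, Polynomial.aeval_X]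
    congr 1
    have h2 := Polynomial.aeval_algHom_apply (K⟮J⟯).val (AdjoinSimple.gen K J) (p k)
    exact h2.symm

end Fermat.Agent.S24.Degree
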