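import Mathlib
import Fermat.Agent.S24.Theta
import Fermat.Agent.S24.HolHCoset
import Fermat.Agent.S24.DegreeAbs

set_option autoImplicit false

/-!
# DEGREE-LB: the lower bound `[SL(2,ℤ) : Γ₀(N)] ≤ [F_N : ℚ̄(j)]`

The coset-indexed embeddings `f ↦ θ(f) ∘ g⁻¹` of `F_N` into the fraction field of the ring of
holomorphic functions on `ℍ` are pairwise distinct and agree on `ℚ̄(j)`.
-/

noncomputable section

open UpperHalfPlane CongruenceSubgroup IntermediateField
open scoped MatrixGroups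

namespace Fermat.Agent.S24.Degree

open Fermat.Agent.S24.Theta Fermat.Agent.S24.JFun Fermat.Agent.S24.HolH
open Fermat.Agent.S24.Modular Fermat.Agent.S24.StabAbs

/-- `compSL g` fixes `theta ι N (jA0 N)` (the function `j`). -/
theorem compSL_theta_jA0 (ι : Kbar →+* ℂ) (N : ℕ) (g : SL(2, ℤ)) :
    compSL g (theta ι N (jA0 N)) = theta ι N (jA0 N) := by
  apply Subtype.ext
  funext τ
  show (theta ι N (jA0 N) : ℍ → ℂ) (g • τ) = (theta ι N (jA0 N) : ℍ → ℂ) τ
  rw [theta_jA0_apply, theta_jA0_apply, jFun_smul]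

/-- `compSL g` fixes the constants. -/
theorem compSL_theta_algebraMap (ι : Kbar →+* ℂ) (N : ℕ) (g : SL(2, ℤ)) (c : Kbar) :
    compSL g (theta ι N (algebraMap Kbar (A0 N) c)) = theta ι N (algebraMap Kbar (A0 N) c) := by
  rw [theta_algebraMap]
  exact (compSL g).commutes (ι c)

/-- The stabiliser of `theta ι N (gen N N _)` (the function `τ ↦ j(Nτ)`) is `Γ₀(N)`. -/
theorem mem_Gamma0_of_compSL_theta_gen (ι : Kbar →+* ℂ) (N : ℕ) [NeZero N] (g : SL(2, ℤ))
    (h : compSL g (theta ι N (gen N N dvd_rfl)) = theta ι N (gen N N dvd_rfl)) :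
    g ∈ Gamma0 N := by
  apply Fermat.Agent.S24.StabJ.mem_Gamma0_of_jFun_scale N g
  intro τ
  have h1 := congrArg (fun φ : HolH => (φ : ℍ → ℂ) τ) h
  simp only [compSL_apply] at h1
  rw [theta_gen_apply, theta_gen_apply] at h1
  exact h1

/-- The coset-indexed embeddings of `F_N` into `Frac(HolH)`. -/
def cosetEmb (ι : Kbar →+* ℂ) (N : ℕ) (x : SL(2, ℤ) ⧸ Gamma0 N) :
    FN N →+* FractionRing HolH :=
  IsFractionRing.lift (A := A0 N) (K := FN N)
    (g := (algebraMap HolH (FractionRing HolH)).comp (cosetHom (theta ι N) x))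
    ((IsFractionRing.injective HolH (FractionRing HolH)).comp
      (cosetHom_injective (theta ι N) (theta_injective ι N) x))

theorem cosetEmb_coe (ι : Kbar →+* ℂ) (N : ℕ) (x : SL(2, ℤ) ⧸ Gamma0 N) (a : A0 N) :
    cosetEmb ι N x (a : FN N)
      = algebraMap HolH (FractionRing HolH) (cosetHom (theta ι N) x a) :=
  IsFractionRing.lift_algebraMap _ a

theorem cosetEmb_injective (ι : Kbar →+* ℂ) (N : ℕ) [NeZero N] :
    Function.Injective (cosetEmb ι N) := by
  intro x y hxy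
  apply cosetHom_index_injective (theta ι N)
    (fun γ hγ a => compSL_theta_of_mem_Gamma0 hγ a) (gen N N dvd_rfl)
    (mem_Gamma0_of_compSL_theta_gen ι N)
  ext a : 1
  have h1 := congrArg (fun ρ : FN N →+* FractionRing HolH => ρ (a : FN N)) hxy
  simp only [cosetEmb_coe] at h1
  exact IsFractionRing.injective HolH (FractionRing HolH) h1

theorem cosetEmb_algebraMap (ι : Kbar →+* ℂ) (N : ℕ) (x y : SL(2, ℤ) ⧸ Gamma0 N) (c : Kbar) :
    cosetEmb ι N x (algebraMap Kbar (FN N) c) = cosetEmb ι N y (algebraMap Kbar (FN N) c) := by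
  have h : algebraMap Kbar (FN N) c = ((algebraMap Kbar (A0 N) c : A0 N) : FN N) := rfl
  rw [h, cosetEmb_coe, cosetEmb_coe,
    cosetHom_of_invariant (theta ι N) (fun g => compSL_theta_algebraMap ι N g c) x,
    cosetHom_of_invariant (theta ι N) (fun g => compSL_theta_algebraMap ι N g c) y]

theorem cosetEmb_jF (ι : Kbar →+* ℂ) (N : ℕ) (x y : SL(2, ℤ) ⧸ Gamma0 N) :
    cosetEmb ι N x (jF N) = cosetEmb ι N y (jF N) := by
  have h : jF N = ((jA0 N : A0 N) : FN N) := rfl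
  rw [h, cosetEmb_coe, cosetEmb_coe,
    cosetHom_of_invariant (theta ι N) (fun g => compSL_theta_jA0 ι N g) x,
    cosetHom_of_invariant (theta ι N) (fun g => compSL_theta_jA0 ι N g) y]

/-- **DEGREE-LB**: `[SL(2,ℤ) : Γ₀(N)] ≤ [F_N : ℚ̄(j)]`. -/
theorem card_le_finrank_jF (N : ℕ) [NeZero N] [Finite (SL(2, ℤ) ⧸ Gamma0 N)]
    [Module.Finite Kbar⟮jF N⟯ (FN N)] :
    Nat.card (SL(2, ℤ) ⧸ Gamma0 N) ≤ Module.finrank Kbar⟮jF N⟯ (FN N) :=
  Fermat.Agent.S24.DegreeAbs.card_le_finrank_of_injective' (jF N) (cosetEmb iotaBar N)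
    (cosetEmb_injective iotaBar N) (cosetEmb_algebraMap iotaBar N) (cosetEmb_jF iotaBar N)

end Fermat.Agent.S24.Degree

end
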