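import Mathlib
import Fermat.Agent.S24.Theta
import Fermat.Agent.S24.DegreeAbs
import Fermat.Agent.S24.Degree.Descent
import Fermat.Agent.S24.Degree.Lower
import Fermat.Agent.S24.Comb.Counts

set_option autoImplicit false

/-!
# DEGREE wiring: `[F_N : ℚ̄(j)] = ψ(N)` and `trdeg = 1` from the "SY" relation

Input (hypothesis `hrel`, the output shape of `Degree/Sym.lean`): for every `a ∈ A0 N` the
function `theta ι N a` satisfies a monic relation of degree `n = [SL(2,ℤ) : Γ₀(N)]` whose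
coefficients are polynomials (over `ℂ`) in the analytic `j`.
-/

noncomputable section

open UpperHalfPlane CongruenceSubgroup IntermediateField ModularCurve
open scoped MatrixGroups

namespace Fermat.Agent.S24.DegreeWire

open Fermat.Agent.S24.Theta Fermat.Agent.S24.JFun Fermat.Agent.S24.HolH
open Fermat.Agent.S24.Modular Fermat.Agent.S24.DegreeGen

local notation "𝕢" => Function.Periodic.qParam

/-- The generators `j(q^d)`, `d ∣ N`, as a subset of `F_N`. -/
def genSet (N : ℕ) : Set (FN N) := {x | (x : LaurentSeries Kbar) ∈ gens Kbar N}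

theorem genSet_finite (N : ℕ) [NeZero N] : (genSet N).Finite :=
  Set.Finite.preimage Subtype.val_injective.injOn (gens_finite Kbar N)

theorem genSet_subset_A0 (N : ℕ) : genSet N ⊆ (A0 N : Set (FN N)) :=
  fun _ hx => Algebra.subset_adjoin hx

theorem A0_le_adjoin_genSet (N : ℕ) : A0 N ≤ Algebra.adjoin Kbar (genSet N) := by
  intro x hx
  have key : ∀ y : A0 N, (y : FN N) ∈ Algebra.adjoin Kbar (genSet N) := by
    intro y
    refine A0_induction (p := fun y : A0 N => (y : FN N) ∈ Algebra.adjoin Kbar (genSet N))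
      ?_ ?_ ?_ ?_ y
    · intro d _ hd
      exact Algebra.subset_adjoin (coeffEmb_qExpand_mem_gens Kbar hd)
    · intro c
      exact Subalgebra.algebraMap_mem _ c
    · intro x y hx hy
      exact add_mem hx hy
    · intro x y hx hy
      exact mul_mem hx hy
  exact key ⟨x, hx⟩

theorem adjoin_genSet_eq (N : ℕ) : Algebra.adjoin Kbar (genSet N) = A0 N :=
  le_antisymm (Algebra.adjoin_le (genSet_subset_A0 N)) (A0_le_adjoin_genSet N)

theorem adjoin_genSet_eq_top (N : ℕ) : IntermediateField.adjoin Kbar (genSet N) = ⊤ := by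
  rw [eq_top_iff]
  intro f _
  obtain ⟨a, b, hb, hab⟩ := exists_mul_eq f
  have ha' : (a : FN N) ∈ IntermediateField.adjoin Kbar (genSet N) :=
    IntermediateField.algebra_adjoin_le_adjoin Kbar (genSet N) (A0_le_adjoin_genSet N a.2)
  have hb' : (b : FN N) ∈ IntermediateField.adjoin Kbar (genSet N) :=
    IntermediateField.algebra_adjoin_le_adjoin Kbar (genSet N) (A0_le_adjoin_genSet N b.2)
  have hf : f = (a : FN N) / (b : FN N) := by
    rw [← hab, mul_div_cancel_right₀ _ hb]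
  rw [hf]
  exact div_mem ha' hb'

theorem hasQ_pow {K : Type*} [Field K] {ι : K →+* ℂ} {A : LaurentSeries K} {φ : ℍ → ℂ}
    (h : HasQ ι A φ) (k : ℕ) : HasQ ι (A ^ k) (φ ^ k) := by
  induction k with
  | zero =>
    rw [pow_zero, pow_zero]
    exact hasQ_one ι
  | succ k ih =>
    rw [pow_succ, pow_succ]
    exact ih.mul h

/-- Descent for `F_N`: a monic relation over `ℂ[j]` for `theta ι N a` gives a monic relation over
`ℚ̄[j]` for `a`. -/
theorem exists_relation (ι : Kbar →+* ℂ) (N n : ℕ) (a : A0 N) (P : ℕ → Polynomial ℂ)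
    (h : ∀ τ : ℍ, (theta ι N a : ℍ → ℂ) τ ^ n
      + ∑ k ∈ Finset.range n, (P k).eval (jFun τ) * (theta ι N a : ℍ → ℂ) τ ^ k = 0) :
    ∃ Q : ℕ → Polynomial Kbar,
      (a : FN N) ^ n + ∑ k ∈ Finset.range n, Polynomial.aeval (jF N) (Q k) * (a : FN N) ^ k = 0 := by
  have hexp : ∀ (e k : ℕ) (τ : ℍ), HasSum (fun m : ℤ =>
      ι ((jqModC Kbar ^ e * ((a : FN N) : LaurentSeries Kbar) ^ k).coeff m) * 𝕢 1 (τ : ℂ) ^ m)
      (jFun τ ^ e * (theta ι N a : ℍ → ℂ) τ ^ k) := fun e k τ =>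
    ((hasQ_pow (hasQ_jqModC ι) e).mul (hasQ_pow (hasQ_theta ι N a) k)) τ
  obtain ⟨Q, hQ⟩ := Fermat.Agent.S24.Degree.exists_poly_relation_of_hasSum ι
    ((a : FN N) : LaurentSeries Kbar) (jqModC Kbar) (theta ι N a : ℍ → ℂ) jFun hexp n P h
  refine ⟨Q, ?_⟩
  have hcoe : ∀ p : Polynomial Kbar,
      ((Polynomial.aeval (jF N) p : FN N) : LaurentSeries Kbar)
        = Polynomial.aeval (jqModC Kbar) p := by
    intro p
    have h1 := Polynomial.aeval_algHom_apply (modularFunctionFieldBar N).val (jF N) p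
    have h2 : (modularFunctionFieldBar N).val (jF N) = jqModC Kbar :=
      Fermat.Agent.S24.Puiseux.coeffEmb_jq
    rw [h2] at h1
    exact h1.symm
  apply Subtype.ext
  have h3 : (((a : FN N) ^ n + ∑ k ∈ Finset.range n,
      Polynomial.aeval (jF N) (Q k) * (a : FN N) ^ k : FN N) : LaurentSeries Kbar)
      = ((a : FN N) : LaurentSeries Kbar) ^ n + ∑ k ∈ Finset.range n,
        Polynomial.aeval (jqModC Kbar) (Q k) * ((a : FN N) : LaurentSeries Kbar) ^ k := by
    push_cast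
    congr 1
    refine Finset.sum_congr rfl fun k _ => ?_
    rw [hcoe]
  rw [h3, hQ]
  rfl

/-- Upper bound and finiteness from the relations. -/
theorem finite_and_finrank_le_of_rel (ι : Kbar →+* ℂ) (N : ℕ) [NeZero N] (n : ℕ)
    (hrel : ∀ a : A0 N, ∃ P : ℕ → Polynomial ℂ, ∀ τ : ℍ,
      (theta ι N a : ℍ → ℂ) τ ^ n
        + ∑ k ∈ Finset.range n, (P k).eval (jFun τ) * (theta ι N a : ℍ → ℂ) τ ^ k = 0) :
    Module.Finite Kbar⟮jF N⟯ (FN N) ∧ Module.finrank Kbar⟮jF N⟯ (FN N) ≤ n := by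
  refine Fermat.Agent.S24.DegreeAbs.finite_and_finrank_le (jF N) (genSet N) (genSet_finite N)
    (adjoin_genSet_eq_top N) ?_ n ?_
  · rw [adjoin_genSet_eq]
    exact (jA0 N).2
  · intro a ha
    rw [adjoin_genSet_eq] at ha
    obtain ⟨P, hP⟩ := hrel ⟨a, ha⟩
    obtain ⟨Q, hQ⟩ := exists_relation ι N n ⟨a, ha⟩ P hP
    exact Fermat.Agent.S24.Degree.exists_monic_of_relation (jF N) a n Q hQ

/-- **M3 from the relations**: `[F_N : ℚ̄(j)] = ψ(N)`. -/
theorem finrank_jF_of_rel (ι : Kbar →+* ℂ) (N : ℕ) [NeZero N]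
    (hrel : ∀ a : A0 N, ∃ P : ℕ → Polynomial ℂ, ∀ τ : ℍ,
      (theta ι N a : ℍ → ℂ) τ ^ Nat.card (SL(2, ℤ) ⧸ Gamma0 N)
        + ∑ k ∈ Finset.range (Nat.card (SL(2, ℤ) ⧸ Gamma0 N)),
          (P k).eval (jFun τ) * (theta ι N a : ℍ → ℂ) τ ^ k = 0) :
    Module.finrank Kbar⟮jF N⟯ (FN N) = dedekindPsi N := by
  obtain ⟨hfin, hle⟩ := finite_and_finrank_le_of_rel ι N _ hrel
  have : Finite (SL(2, ℤ) ⧸ Gamma0 N) :=
    Fermat.Agent.S24.GenusNat.finite_quotient N (NeZero.ne N)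
  have hge := Fermat.Agent.S24.Degree.card_le_finrank_jF N
  rw [← Fermat.Agent.S24.Comb.card_quotient_Gamma0 N]
  exact le_antisymm hle hge

/-- **M0 from the relations**: `trdeg_ℚ̄ F_N = 1`. -/
theorem trdeg_FN_of_rel (ι : Kbar →+* ℂ) (N : ℕ) [NeZero N] (n : ℕ)
    (hrel : ∀ a : A0 N, ∃ P : ℕ → Polynomial ℂ, ∀ τ : ℍ,
      (theta ι N a : ℍ → ℂ) τ ^ n
        + ∑ k ∈ Finset.range n, (P k).eval (jFun τ) * (theta ι N a : ℍ → ℂ) τ ^ k = 0) :
    Algebra.trdeg Kbar (FN N) = 1 := by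
  obtain ⟨hfin, -⟩ := finite_and_finrank_le_of_rel ι N n hrel
  have : Algebra.IsAlgebraic Kbar⟮jF N⟯ (FN N) := Algebra.IsAlgebraic.of_finite _ _
  exact Fermat.Agent.S24.DegreeAbs.trdeg_eq_one (jF N) (transcendental_jF N)

end Fermat.Agent.S24.DegreeWire

end
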