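import Mathlib
import Fermat.Agent.S24.Degree.Wire
import Fermat.Agent.S24.Degree.Sym
import Fermat.Agent.S24.Degree.Growth

set_option autoImplicit false

/-!
# DEGREE: final statements `[F_N : ℚ̄(j)] = ψ(N)` (M3) and `trdeg = 1` (M0)
-/

noncomputable section

open UpperHalfPlane CongruenceSubgroup IntermediateField ModularCurve
open scoped MatrixGroups

namespace Fermat.Agent.S24.DegreeWire

open Fermat.Agent.S24.Theta Fermat.Agent.S24.JFun Fermat.Agent.S24.HolH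
open Fermat.Agent.S24.Modular Fermat.Agent.S24.Degree

/-- `theta ι N a` lies in `cuspMod`. -/
theorem theta_mem_cuspMod (ι : Kbar →+* ℂ) (N : ℕ) (a : A0 N) : theta ι N a ∈ cuspMod := by
  refine theta_image_induction (P := fun φ : HolH => φ ∈ cuspMod) ?_ ?_ ?_ ?_ a
  · intro d _ _
    exact jScale_mem_cuspMod d (jScale d) (fun τ => rfl)
  · intro c
    exact Subalgebra.algebraMap_mem cuspMod (ι c)
  · intro φ ψ hφ hψ
    exact add_mem hφ hψ
  · intro φ ψ hφ hψ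
    exact mul_mem hφ hψ

/-- The monic relation of degree `[SL(2,ℤ) : Γ₀(N)]` over `ℂ[j]` for every `theta ι N a`. -/
theorem exists_rel (ι : Kbar →+* ℂ) (N : ℕ) [NeZero N] (a : A0 N) :
    ∃ P : ℕ → Polynomial ℂ, ∀ τ : ℍ,
      (theta ι N a : ℍ → ℂ) τ ^ Nat.card (SL(2, ℤ) ⧸ Gamma0 N)
        + ∑ k ∈ Finset.range (Nat.card (SL(2, ℤ) ⧸ Gamma0 N)),
          (P k).eval (jFun τ) * (theta ι N a : ℍ → ℂ) τ ^ k = 0 := by
  have hfin : Finite (SL(2, ℤ) ⧸ Gamma0 N) :=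
    Fermat.Agent.S24.GenusNat.finite_quotient N (NeZero.ne N)
  let _ : Fintype (SL(2, ℤ) ⧸ Gamma0 N) := Fintype.ofFinite _
  have h := Fermat.Agent.S24.Degree.exists_poly_relation (N := N) (theta ι N)
    (fun γ hγ a => compSL_theta_of_mem_Gamma0 hγ a) cuspMod
    (fun f hf => modAt_of_mem_cuspMod hf) a
    (fun x => compSL_mem_cuspMod _ (theta_mem_cuspMod ι N a))
  rw [Nat.card_eq_fintype_card]
  exact h

/-- **M3**: `[F_N : ℚ̄(j)] = ψ(N)`. -/
theorem finrank_jF (N : ℕ) [NeZero N] :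
    Module.finrank Kbar⟮jF N⟯ (FN N) = dedekindPsi N :=
  finrank_jF_of_rel iotaBar N (exists_rel iotaBar N)

/-- **M0**: `trdeg_ℚ̄ F_N = 1`. -/
theorem trdeg_FN (N : ℕ) [NeZero N] : Algebra.trdeg Kbar (FN N) = 1 :=
  trdeg_FN_of_rel iotaBar N _ (exists_rel iotaBar N)

end Fermat.Agent.S24.DegreeWire

end
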