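import Fermat.Agent.S24.Modular.Defs
import Fermat.Agent.S24.Theta
import Fermat.Agent.S24.DegreeAbs
import Fermat.Agent.S24.Degree.Descent
import Fermat.Agent.S24.Degree.Sym
import Fermat.Agent.S24.Degree.Lower
import Fermat.Agent.S24.Degree.Growth
import Fermat.Agent.S24.Comb.Counts

set_option autoImplicit false
set_option linter.dupNamespace false

/-!
S24, DEGREE block, final wiring: `F_N` is finite over `ℚ̄(j)` of degree `ψ(N)`.

* upper bound: every `a ∈ A0 N` is a root of a monic polynomial of degree `[SL(2,ℤ) : Γ₀(N)]`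
  over `ℚ̄(j)` (`Sym.exists_poly_relation` over `ℂ[j]`, then `Descent`);
* lower bound: `Lower.card_le_finrank_jF`.
-/

open ModularCurve IntermediateField UpperHalfPlane CongruenceSubgroup
open scoped MatrixGroups
open Fermat.Agent.S24.Theta Fermat.Agent.S24.HolH Fermat.Agent.S24.JFun
open Fermat.Agent.S24.DegreeGen Fermat.Agent.S24.Modular

namespace Fermat.Agent.S24.Degree

local notation "𝕢" => Function.Periodic.qParam

/-- the generators `j(q^d)`, `d ∣ N`, as a set of elements of `F_N`. -/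
def gensFN (N : ℕ) : Set (FN N) := {x | (x : LaurentSeries Kbar) ∈ gens Kbar N}

theorem gensFN_finite (N : ℕ) [NeZero N] : (gensFN N).Finite :=
  (gens_finite Kbar N).preimage Subtype.val_injective.injOn

theorem gensFN_subset_A0 (N : ℕ) : gensFN N ⊆ (A0 N : Set (FN N)) :=
  fun _ hx => Algebra.subset_adjoin hx

theorem jF_mem_gensFN (N : ℕ) : jF N ∈ gensFN N := coeffEmb_jq_mem_gens Kbar N

theorem coe_A0_mem_adjoin (N : ℕ) (a : A0 N) :
    (a : FN N) ∈ IntermediateField.adjoin Kbar (gensFN N) := by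
  refine A0_induction
    (p := fun a : A0 N => (a : FN N) ∈ IntermediateField.adjoin Kbar (gensFN N)) ?_ ?_ ?_ ?_ a
  · intro d _ hd
    exact IntermediateField.subset_adjoin _ _ (coeffEmb_qExpand_mem_gens Kbar hd)
  · intro c
    exact IntermediateField.algebraMap_mem _ c
  · intro x y hx hy
    exact add_mem hx hy
  · intro x y hx hy
    exact mul_mem hx hy

theorem adjoin_gensFN (N : ℕ) : IntermediateField.adjoin Kbar (gensFN N) = ⊤ := by
  rw [eq_top_iff]
  intro x _
  obtain ⟨a, b, hb, hab⟩ := exists_mul_eq x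
  have hx : x = (a : FN N) / (b : FN N) := eq_div_of_mul_eq hb hab
  rw [hx]
  exact div_mem (coe_A0_mem_adjoin N a) (coe_A0_mem_adjoin N b)

/-- every `theta x` has moderate growth at all cusps. -/
theorem theta_mem_cuspMod (ι : Kbar →+* ℂ) (N : ℕ) (x : A0 N) : theta ι N x ∈ cuspMod :=
  theta_image_induction (P := fun φ : HolH => φ ∈ cuspMod)
    (fun d _ _ => jScale_mem_cuspMod d (jScale d) (fun _ => rfl))
    (fun _ => Subalgebra.algebraMap_mem _ _)
    (fun _ _ h1 h2 => add_mem h1 h2) (fun _ _ h1 h2 => mul_mem h1 h2) x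

/-- **Upper bound, elementwise**: every element of `A0 N` is a root of a monic polynomial of
degree `[SL(2,ℤ) : Γ₀(N)]` over `ℚ̄(j)`. -/
theorem exists_monic_A0 (N : ℕ) [NeZero N] [Fintype (SL(2, ℤ) ⧸ Gamma0 N)] (a : A0 N) :
    ∃ q : Polynomial Kbar⟮jF N⟯, q.Monic ∧
      q.natDegree = Fintype.card (SL(2, ℤ) ⧸ Gamma0 N) ∧
      Polynomial.aeval (a : FN N) q = 0 := by
  have hθ : ∀ γ ∈ Gamma0 N, ∀ x : A0 N, compSL γ (theta iotaBar N x) = theta iotaBar N x :=
    fun γ hγ x => compSL_theta_of_mem_Gamma0 hγ x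
  have hB : ∀ f ∈ cuspMod, ∃ m : ℕ,
      IsBoundedAtImInfty (fun τ : ℍ => 𝕢 1 (τ : ℂ) ^ m * (f : ℍ → ℂ) τ) := by
    intro f hf
    obtain ⟨m, hm⟩ := hf 1
    refine ⟨m, ?_⟩
    simpa using hm
  have hBθ : ∀ x : SL(2, ℤ) ⧸ Gamma0 N, cosetHom (theta iotaBar N) x a ∈ cuspMod := by
    intro x
    rw [cosetHom_apply]
    exact compSL_mem_cuspMod _ (theta_mem_cuspMod iotaBar N a)
  obtain ⟨P, hP⟩ := exists_poly_relation (N := N) (theta iotaBar N) hθ cuspMod hB a hBθ
  have hexp : ∀ (e k : ℕ) (τ : ℍ),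
      HasSum (fun m : ℤ => iotaBar ((((jF N : FN N) : LaurentSeries Kbar) ^ e
          * ((a : FN N) : LaurentSeries Kbar) ^ k).coeff m) * 𝕢 1 (τ : ℂ) ^ m)
        (jFun τ ^ e * (theta iotaBar N a : ℍ → ℂ) τ ^ k) := by
    intro e k τ
    have h := hasQ_theta iotaBar N (jA0 N ^ e * a ^ k) τ
    have hv : (theta iotaBar N (jA0 N ^ e * a ^ k) : ℍ → ℂ) τ
        = jFun τ ^ e * (theta iotaBar N a : ℍ → ℂ) τ ^ k := by
      rw [map_mul, map_pow, map_pow]
      show (theta iotaBar N (jA0 N) : ℍ → ℂ) τ ^ e * (theta iotaBar N a : ℍ → ℂ) τ ^ k = _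
      rw [theta_jA0_apply]
    rw [hv] at h
    exact h
  obtain ⟨p, hp⟩ := exists_poly_relation_of_hasSum iotaBar ((a : FN N) : LaurentSeries Kbar)
    ((jF N : FN N) : LaurentSeries Kbar) (theta iotaBar N a : ℍ → ℂ) jFun hexp
    (Fintype.card (SL(2, ℤ) ⧸ Gamma0 N)) P hP
  refine exists_monic_of_relation (jF N) (a : FN N) _ p ?_
  have hinj : Function.Injective (modularFunctionFieldBar N).val := Subtype.val_injective
  apply hinj
  rw [map_add, map_pow, map_sum, map_zero]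
  simp only [map_mul, map_pow, ← Polynomial.aeval_algHom_apply]
  exact hp

/-- **M3 + finiteness**: `F_N` is finite over `ℚ̄(j)` of degree `ψ(N)`. -/
theorem finite_and_finrank_jF (N : ℕ) [NeZero N] :
    Module.Finite Kbar⟮jF N⟯ (FN N) ∧ Module.finrank Kbar⟮jF N⟯ (FN N) = dedekindPsi N := by
  classical
  haveI : Finite (SL(2, ℤ) ⧸ Gamma0 N) :=
    Fermat.Agent.S24.GenusNat.finite_quotient N (NeZero.ne N)
  letI : Fintype (SL(2, ℤ) ⧸ Gamma0 N) := Fintype.ofFinite _
  obtain ⟨hfin, hle⟩ := Fermat.Agent.S24.DegreeAbs.finite_and_finrank_le (jF N) (gensFN N)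
    (gensFN_finite N) (adjoin_gensFN N) (Algebra.subset_adjoin (jF_mem_gensFN N))
    (Fintype.card (SL(2, ℤ) ⧸ Gamma0 N))
    (fun a ha => exists_monic_A0 N ⟨a, Algebra.adjoin_le (gensFN_subset_A0 N) ha⟩)
  haveI := hfin
  have hge := card_le_finrank_jF N
  rw [Nat.card_eq_fintype_card] at hge
  refine ⟨hfin, ?_⟩
  rw [← Fermat.Agent.S24.Comb.card_quotient_Gamma0 N, Nat.card_eq_fintype_card]
  exact le_antisymm hle hge

end Fermat.Agent.S24.Degree
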